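/-
P-SS2 (S35/S36), J-side, row 1053 (SS2-J2 PUSH-COHT), helper94: ABSTRACT CORE.

The transfer `pushHom j` along an injective `j : Γ' →* Γ` with finite-index range is the
two-group operator (`Fermat.Agent.H63.SS2.Rew2.op`) of the family `d⁻¹ * ι₃ (t_y)⁻¹`
(`t_y` a left transversal of `j.range`), and it commutes with the transfers of a family `α`
which is rewriting data at both levels, under two concrete hypotheses (N), (C).
-/
import Fermat.Agent.H63.SS2.Rew2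
import Fermat.Agent.H63.LR.Maps
import Fermat.Agent.H21.Coh.Core

set_option autoImplicit false

namespace Fermat.Agent.H94.SS2

open Fermat.Agent.H63.SS2 Fermat.Agent.H63.LR Fermat.Agent.H21 Finset

/-- A `Rewriting` is a `Rew2` with both groups equal. -/
theorem rew2_of_rewriting' {G Γ X : Type*} [Group G] [Group Γ] {ι : Γ →* G} {α : X → G}
    (h : Rewriting ι α) : Rew2 ι ι α :=
  ⟨h.inj, h.rw, h.sep⟩

theorem rew2_op_eq_transfer' {G Γ X : Type*} [Group G] [Group Γ] [Fintype X] {ι : Γ →* G}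
    {α : X → G} (h : Rewriting ι α) (h' : Rew2 ι ι α) (A : Type*) [AddCommGroup A]
    (φ : Additive Γ →+ A) : h'.op A φ = h.transfer A φ := by
  refine AddMonoidHom.ext fun γ => ?_
  obtain ⟨γ, rfl⟩ : ∃ γ₀ : Γ, Additive.ofMul γ₀ = γ := ⟨Additive.toMul γ, rfl⟩
  rw [h'.op_apply_of_rewriting φ γ (h.tgt γ) (h.kap γ) (fun x => h.spec γ x)]
  rfl

section PushRew

variable {G Γ Γ' : Type*} [Group G] [Group Γ] [Group Γ'] (j : Γ' →* Γ)

/-- The representative of the coset `y` in the default left transversal of `j.range`. -/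
noncomputable def trRep (y : Γ ⧸ j.range) : Γ :=
  ((default : j.range.LeftTransversal).2.leftQuotientEquiv y : Γ)

theorem mk_trRep (y : Γ ⧸ j.range) : (QuotientGroup.mk (trRep j y) : Γ ⧸ j.range) = y :=
  Subgroup.IsComplement.quotientGroupMk_leftQuotientEquiv _ y

theorem trRep_inv_mul_mem {y : Γ ⧸ j.range} {g : Γ}
    (h : (QuotientGroup.mk g : Γ ⧸ j.range) = y) : (trRep j y)⁻¹ * g ∈ j.range := by
  rw [← QuotientGroup.eq, mk_trRep, h]

/-- The family of the transfer along `j`, inside `G`. -/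
noncomputable def pushFam (ι₃ : Γ →* G) (d : G) (y : Γ ⧸ j.range) : G :=
  d⁻¹ * (ι₃ (trRep j y))⁻¹

variable {j} {ι₃ : Γ →* G} {ι₁ : Γ' →* G} {d : G}

theorem conj_swap (hd : ∀ κ, ι₃ (j κ) = d * ι₁ κ * d⁻¹) (κ : Γ') :
    d⁻¹ * ι₃ (j κ) = ι₁ κ * d⁻¹ := by
  rw [hd κ]
  group

/-- The family of the transfer is two-group rewriting data. -/
theorem rew2_pushFam (hι₁ : Function.Injective ι₁) (hι₃ : Function.Injective ι₃)
    (hd : ∀ κ, ι₃ (j κ) = d * ι₁ κ * d⁻¹) : Rew2 ι₁ ι₃ (pushFam j ι₃ d) where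
  inj := hι₁
  rw γ y := by
    have hmem : (trRep j y)⁻¹ * (γ * trRep j (γ⁻¹ • y)) ∈ j.range := by
      apply trRep_inv_mul_mem
      have h1 : (QuotientGroup.mk (γ * trRep j (γ⁻¹ • y)) : Γ ⧸ j.range)
          = γ • (QuotientGroup.mk (trRep j (γ⁻¹ • y)) : Γ ⧸ j.range) := rfl
      rw [h1, mk_trRep, smul_inv_smul]
    obtain ⟨κ, hκ⟩ := hmem
    refine ⟨γ⁻¹ • y, κ, ?_⟩
    have h2 : ι₃ (trRep j y)⁻¹ * ι₃ γ = ι₃ (j κ) * (ι₃ (trRep j (γ⁻¹ • y)))⁻¹ := by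
      rw [hκ, map_mul, map_mul, map_inv]
      group
    unfold pushFam
    rw [mul_assoc, ← map_inv, h2, ← mul_assoc, conj_swap hd κ, mul_assoc]
  sep y y' κ e := by
    unfold pushFam at e
    have h1 : (ι₃ (trRep j y))⁻¹ = ι₃ (j κ) * (ι₃ (trRep j y'))⁻¹ := by
      have : d⁻¹ * (ι₃ (trRep j y))⁻¹ = d⁻¹ * (ι₃ (j κ) * (ι₃ (trRep j y'))⁻¹) := by
        rw [e, ← mul_assoc, ← mul_assoc, conj_swap hd κ]
      exact mul_left_cancel this
    have h2 : (trRep j y)⁻¹ = j κ * (trRep j y')⁻¹ := by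
      apply hι₃
      rw [map_inv, map_mul, map_inv, h1]
    have h3 : (trRep j y)⁻¹ * trRep j y' ∈ j.range := ⟨κ, by rw [h2]; group⟩
    have h4 := (QuotientGroup.eq (s := j.range)).mpr h3
    rw [mk_trRep, mk_trRep] at h4
    exact h4

/-- `pushHom` is the operator of the transfer family. -/
theorem pushHom_eq_op (hj : Function.Injective j) [hfi : j.range.FiniteIndex]
    [Fintype (Γ ⧸ j.range)]
    (hd : ∀ κ, ι₃ (j κ) = d * ι₁ κ * d⁻¹)
    (hR : Rew2 ι₁ ι₃ (pushFam j ι₃ d)) (A : Type*) [AddCommGroup A]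
    (ψ : Additive Γ' →+ A) : pushHom j A ψ = hR.op A ψ := by
  classical
  refine AddMonoidHom.ext fun γ => ?_
  obtain ⟨γ, rfl⟩ : ∃ γ₀ : Γ, Additive.ofMul γ₀ = γ := ⟨Additive.toMul γ, rfl⟩
  -- the explicit rewriting
  have hmem : ∀ y : Γ ⧸ j.range, (trRep j y)⁻¹ * (γ * trRep j (γ⁻¹ • y)) ∈ j.range := by
    intro y
    apply trRep_inv_mul_mem
    have h1 : (QuotientGroup.mk (γ * trRep j (γ⁻¹ • y)) : Γ ⧸ j.range)
        = γ • (QuotientGroup.mk (trRep j (γ⁻¹ • y)) : Γ ⧸ j.range) := rfl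
    rw [h1, mk_trRep, smul_inv_smul]
  let κ : Γ ⧸ j.range → Γ' := fun y => (hmem y).choose
  have hκ : ∀ y, j (κ y) = (trRep j y)⁻¹ * (γ * trRep j (γ⁻¹ • y)) := fun y =>
    (hmem y).choose_spec
  have hrew : ∀ y, pushFam j ι₃ d y * ι₃ γ = ι₁ (κ y) * pushFam j ι₃ d (γ⁻¹ • y) := by
    intro y
    have h2 : ι₃ (trRep j y)⁻¹ * ι₃ γ = ι₃ (j (κ y)) * (ι₃ (trRep j (γ⁻¹ • y)))⁻¹ := by
      rw [hκ, map_mul, map_mul, map_inv]
      group
    unfold pushFam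
    rw [mul_assoc, ← map_inv, h2, ← mul_assoc, conj_swap hd (κ y), mul_assoc]
  rw [hR.op_apply_of_rewriting ψ γ _ κ hrew]
  -- the transfer
  have hpush : pushHom j A ψ
      = MonoidHom.toAdditiveLeft (MonoidHom.transfer (onRange j hj A ψ)) := by
    unfold pushHom
    rw [dif_pos ⟨hj, hfi⟩]
  rw [hpush]
  show Multiplicative.toAdd (MonoidHom.transfer (onRange j hj A ψ) γ) = _
  rw [MonoidHom.transfer_def (onRange j hj A ψ) (default : j.range.LeftTransversal) γ]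
  unfold Subgroup.leftTransversals.diff
  simp only
  rw [toAdd_prod]
  refine Finset.sum_congr (by ext; simp) fun y _ => ?_
  have key : ∀ h : j.range, (h : Γ) = j (κ y) →
      (onRange j hj A ψ) h = Multiplicative.ofAdd (ψ (Additive.ofMul (κ y))) := by
    intro h hh
    unfold onRange
    simp only [MonoidHom.coe_comp, Function.comp_apply, MulEquiv.coe_toMonoidHom]
    have : (MonoidHom.ofInjective hj).symm h = κ y := by
      rw [MulEquiv.symm_apply_eq]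
      exact Subtype.ext hh
    rw [this]
    rfl
  refine congrArg Multiplicative.toAdd (key _ ?_)
  show (((default : j.range.LeftTransversal).2.leftQuotientEquiv y : Γ))⁻¹
      * ((γ • (default : j.range.LeftTransversal)).2.leftQuotientEquiv y : Γ) = j (κ y)
  rw [hκ, Subgroup.smul_apply_eq_smul_apply_inv_smul]
  rfl

/-- Separation of the family `β y * α x`. -/
theorem sep_pushFam_mul {X : Type*} {α : X → G}
    (hι₃ : Function.Injective ι₃) (hd : ∀ κ, ι₃ (j κ) = d * ι₁ κ * d⁻¹)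
    (h₃ : Rewriting ι₃ α) (p p' : (Γ ⧸ j.range) × X) (κ : Γ')
    (e : pushFam j ι₃ d p.1 * α p.2 = ι₁ κ * (pushFam j ι₃ d p'.1 * α p'.2)) : p = p' := by
  unfold pushFam at e
  have h1 : α p.2 = ι₃ (trRep j p.1 * j κ * (trRep j p'.1)⁻¹) * α p'.2 := by
    have e' : d⁻¹ * ((ι₃ (trRep j p.1))⁻¹ * α p.2)
        = d⁻¹ * (ι₃ (j κ) * ((ι₃ (trRep j p'.1))⁻¹ * α p'.2)) := by
      rw [← mul_assoc, e, ← mul_assoc (d⁻¹) (ι₃ (j κ)), conj_swap hd κ]
      group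
    have e'' := mul_left_cancel e'
    rw [map_mul, map_mul, map_inv, mul_assoc, mul_assoc, ← e'']
    group
  have hx : p.2 = p'.2 := h₃.sep _ _ _ h1
  have h2 : ι₃ (trRep j p.1 * j κ * (trRep j p'.1)⁻¹) = 1 := by
    rw [hx] at h1
    have : (1 : G) * α p'.2 = ι₃ (trRep j p.1 * j κ * (trRep j p'.1)⁻¹) * α p'.2 := by
      rw [one_mul]; exact h1
    exact (mul_right_cancel this).symm
  have h3 : trRep j p.1 * j κ * (trRep j p'.1)⁻¹ = 1 := by
    apply hι₃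
    rw [h2, map_one]
  have h4 : (trRep j p.1)⁻¹ * trRep j p'.1 ∈ j.range := by
    refine ⟨κ, ?_⟩
    have : j κ = (trRep j p.1)⁻¹ * trRep j p'.1 := by
      calc j κ = (trRep j p.1)⁻¹ * (trRep j p.1 * j κ * (trRep j p'.1)⁻¹) * trRep j p'.1 := by
            group
        _ = _ := by rw [h3, mul_one]
    exact this
  have h5 := (QuotientGroup.eq (s := j.range)).mpr h4
  rw [mk_trRep, mk_trRep] at h5
  exact Prod.ext h5 hx

/-- Existence of the swap `α x * β y = ι₁ μ * (β y' * α x')`. -/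
theorem exists_swap {X : Type*} {α : X → G} (hd : ∀ κ, ι₃ (j κ) = d * ι₁ κ * d⁻¹)
    (h₃ : Rewriting ι₃ α) (hN : ∀ x, ∃ (x' : X) (ν : Γ), d * α x * d⁻¹ = ι₃ ν * α x')
    (p : X × (Γ ⧸ j.range)) :
    ∃ (p' : (Γ ⧸ j.range) × X) (μ : Γ'),
      α p.1 * pushFam j ι₃ d p.2 = ι₁ μ * (pushFam j ι₃ d p'.1 * α p'.2) := by
  obtain ⟨x', ν, hν⟩ := hN p.1
  obtain ⟨x'', κ, hκ⟩ := h₃.rw (trRep j p.2)⁻¹ x'
  -- decompose `ν * κ = j μ * (t_{y'})⁻¹`
  obtain ⟨g, hg⟩ : ∃ g : Γ, g = ν * κ := ⟨_, rfl⟩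
  obtain ⟨y', hy'⟩ : ∃ y' : Γ ⧸ j.range, (QuotientGroup.mk g⁻¹ : Γ ⧸ j.range) = y' := ⟨_, rfl⟩
  have hmem : (trRep j y')⁻¹ * g⁻¹ ∈ j.range := trRep_inv_mul_mem j hy'
  have hmem' : g * trRep j y' ∈ j.range := by
    have := j.range.inv_mem hmem
    rwa [mul_inv_rev, inv_inv, inv_inv] at this
  obtain ⟨μ, hμ⟩ := hmem'
  refine ⟨(y', x''), μ, ?_⟩
  have h1 : α p.1 * d⁻¹ = d⁻¹ * (ι₃ ν * α x') := by
    rw [← hν]
    group
  have h2 : ι₃ g = ι₃ (j μ) * (ι₃ (trRep j y'))⁻¹ := by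
    rw [hμ, map_mul, mul_inv_cancel_right]
  have h3 : ι₃ ν * ι₃ κ = ι₃ g := by rw [hg, map_mul]
  unfold pushFam
  calc α p.1 * (d⁻¹ * (ι₃ (trRep j p.2))⁻¹)
      = d⁻¹ * (ι₃ ν * (α x' * ι₃ (trRep j p.2)⁻¹)) := by
        rw [← mul_assoc, h1, map_inv]
        group
    _ = d⁻¹ * (ι₃ g * α x'') := by
        rw [hκ, ← h3]
        group
    _ = (d⁻¹ * ι₃ (j μ)) * ((ι₃ (trRep j y'))⁻¹ * α x'') := by
        rw [h2]
        group
    _ = ι₁ μ * (d⁻¹ * (ι₃ (trRep j y'))⁻¹ * α x'') := by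
        rw [conj_swap hd μ]
        group

/-- Separation of the family `α x * β y`, from the concrete hypothesis (C). -/
theorem sep_mul_pushFam {X : Type*} {α : X → G}
    (h₁ : Rewriting ι₁ α)
    (hC : ∀ (γ : Γ) (κ : Γ') (x x' : X),
      α x * (d⁻¹ * ι₃ γ * d) = ι₁ κ * α x' → γ ∈ j.range)
    (p p' : X × (Γ ⧸ j.range)) (κ : Γ')
    (e : α p.1 * pushFam j ι₃ d p.2 = ι₁ κ * (α p'.1 * pushFam j ι₃ d p'.2)) : p = p' := by
  unfold pushFam at e
  have h1 : α p.1 * (d⁻¹ * ι₃ ((trRep j p.2)⁻¹ * trRep j p'.2) * d) = ι₁ κ * α p'.1 := by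
    have : α p.1 * (d⁻¹ * ι₃ ((trRep j p.2)⁻¹ * trRep j p'.2) * d)
        = (α p.1 * (d⁻¹ * (ι₃ (trRep j p.2))⁻¹)) * (ι₃ (trRep j p'.2) * d) := by
      rw [map_mul, map_inv]
      group
    rw [this, e]
    group
  have h2 : (trRep j p.2)⁻¹ * trRep j p'.2 ∈ j.range := hC _ _ _ _ h1
  have h3 := (QuotientGroup.eq (s := j.range)).mpr h2
  rw [mk_trRep, mk_trRep] at h3
  have h4 : α p.1 = ι₁ κ * α p'.1 := by
    rw [h3] at e
    have e' : α p.1 * (d⁻¹ * (ι₃ (trRep j p'.2))⁻¹)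
        = (ι₁ κ * α p'.1) * (d⁻¹ * (ι₃ (trRep j p'.2))⁻¹) := by
      rw [e, mul_assoc]
    exact mul_right_cancel e'
  exact Prod.ext (h₁.sep _ _ _ h4) h3

/-- **Abstract PUSH-COHT.**  The transfer along `j` commutes with the transfers of a family
`α` which is rewriting data at both levels. -/
theorem pushHom_transfer_comm (hj : Function.Injective j) [hfi : j.range.FiniteIndex]
    (hι₁ : Function.Injective ι₁) (hι₃ : Function.Injective ι₃)
    (hd : ∀ κ, ι₃ (j κ) = d * ι₁ κ * d⁻¹)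
    {X : Type*} [Fintype X] {α : X → G} (h₁ : Rewriting ι₁ α) (h₃ : Rewriting ι₃ α)
    (hN : ∀ x, ∃ (x' : X) (ν : Γ), d * α x * d⁻¹ = ι₃ ν * α x')
    (hC : ∀ (γ : Γ) (κ : Γ') (x x' : X),
      α x * (d⁻¹ * ι₃ γ * d) = ι₁ κ * α x' → γ ∈ j.range)
    (A : Type*) [AddCommGroup A] (ψ : Additive Γ' →+ A) :
    pushHom j A (h₁.transfer A ψ) = h₃.transfer A (pushHom j A ψ) := by
  classical
  let _ : Fintype (Γ ⧸ j.range) := j.range.fintypeQuotientOfFiniteIndex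
  have hR : Rew2 ι₁ ι₃ (pushFam j ι₃ d) := rew2_pushFam hι₁ hι₃ hd
  have hH₁ : Rew2 ι₁ ι₁ α := rew2_of_rewriting' h₁
  have hH₃ : Rew2 ι₃ ι₃ α := rew2_of_rewriting' h₃
  rw [pushHom_eq_op hj hd hR, pushHom_eq_op hj hd hR, ← rew2_op_eq_transfer' h₁ hH₁,
    ← rew2_op_eq_transfer' h₃ hH₃]
  -- the swap map
  have hex := fun p : X × (Γ ⧸ j.range) => exists_swap (ι₁ := ι₁) hd h₃ hN p
  let e₀ : X × (Γ ⧸ j.range) → (Γ ⧸ j.range) × X := fun p => (hex p).choose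
  let μ : X × (Γ ⧸ j.range) → Γ' := fun p => (hex p).choose_spec.choose
  have hμ : ∀ p : X × (Γ ⧸ j.range),
      α p.1 * pushFam j ι₃ d p.2 = ι₁ (μ p) * (pushFam j ι₃ d (e₀ p).1 * α (e₀ p).2) :=
    fun p => (hex p).choose_spec.choose_spec
  have hinj : Function.Injective e₀ := by
    intro p p' hpp
    apply sep_mul_pushFam h₁ hC p p' (μ p * (μ p')⁻¹)
    rw [hμ p, hμ p', hpp, map_mul, map_inv]
    group
  have hbij : Function.Bijective e₀ := by
    rw [Fintype.bijective_iff_injective_and_card]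
    exact ⟨hinj, by rw [Fintype.card_prod, Fintype.card_prod, mul_comm]⟩
  exact Rew2.op_op_comm hH₁ hR hR hH₃
    (fun p p' κ e => sep_pushFam_mul hι₃ hd h₃ p p' κ e)
    (Equiv.ofBijective e₀ hbij) μ hμ ψ

/-- **Abstract PUSH-COHT**, inverse-free hypotheses. -/
theorem pushHom_transfer_comm' (hj : Function.Injective j) [hfi : j.range.FiniteIndex]
    (hι₁ : Function.Injective ι₁) (hι₃ : Function.Injective ι₃)
    (hd : ∀ κ, ι₃ (j κ) * d = d * ι₁ κ)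
    {X : Type*} [Fintype X] {α : X → G} (h₁ : Rewriting ι₁ α) (h₃ : Rewriting ι₃ α)
    (hN : ∀ x, ∃ (x' : X) (ν : Γ), d * α x = ι₃ ν * α x' * d)
    (hC : ∀ (γ : Γ) (κ : Γ') (x x' : X) (g : G), d * g = ι₃ γ * d →
      α x * g = ι₁ κ * α x' → γ ∈ j.range)
    (A : Type*) [AddCommGroup A] (ψ : Additive Γ' →+ A) :
    pushHom j A (h₁.transfer A ψ) = h₃.transfer A (pushHom j A ψ) := by
  refine pushHom_transfer_comm hj hι₁ hι₃ (d := d) ?_ h₁ h₃ ?_ ?_ A ψ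
  · intro κ
    rw [← hd κ]
    group
  · intro x
    obtain ⟨x', ν, h⟩ := hN x
    exact ⟨x', ν, by rw [h]; group⟩
  · intro γ κ x x' e
    exact hC γ κ x x' (d⁻¹ * ι₃ γ * d) (by group) e

/-- `pushHom` vanishes identically outside the injective, finite-index case. -/
theorem pushHom_eq_zero_of_not (h : ¬ (Function.Injective j ∧ j.range.FiniteIndex))
    (A : Type*) [AddCommGroup A] (ψ : Additive Γ' →+ A) : pushHom j A ψ = 0 := by
  classical
  unfold pushHom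
  rw [dif_neg h]

end PushRew

end Fermat.Agent.H94.SS2
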