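/-
P-SS2 (S35/S36), J-side, row 1053 (SS2-J2 PUSH-COHT), helper94: the concrete matrix lemmas
(N), (C) for the two degeneracy homomorphisms `incl`, `conjD : Γ₀(N q) → Γ₀(N)`, and the
commutation of `pushHom` with `cohT ℓ`, `ℓ ∤ N q`.
-/
import Fermat.Agent.H94.SS2.PushCore
import Fermat.Agent.H21.Coh.Hecke

set_option autoImplicit false

open CongruenceSubgroup Matrix.SpecialLinearGroup
open scoped MatrixGroups OnePoint
open P2MW.S_ModularForm_heckeT_slash_eq_self_of_mem_Gamma0.ModularForm.HeckeSlashInvariance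

namespace Fermat.Agent.H94.SS2

open Fermat.Agent.H21 Fermat.Agent.H63.LR

/-- Shape of the Hecke representatives: upper triangular with natural entries and
determinant `ℓ`. -/
theorem heckeRep_upper {ℓ : ℕ} (hℓ : ℓ ≠ 0) (x : OnePoint (ZMod ℓ)) :
    ∃ u v w : ℕ, ((heckeRep ℓ x : GL (Fin 2) ℝ) : Matrix (Fin 2) (Fin 2) ℝ)
      = !![(u : ℝ), (v : ℝ); 0, (w : ℝ)] ∧ u * w = ℓ := by
  induction x using OnePoint.rec with
  | infty =>
    refine ⟨ℓ, 0, 1, ?_, mul_one _⟩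
    rw [heckeRep_infty, ModularForm.val_heckeDiagMatrix hℓ]
    simp
  | coe i =>
    refine ⟨1, i.val, ℓ, ?_, one_mul _⟩
    rw [heckeRep_coe, ModularForm.val_heckeMatrix hℓ]
    simp

/-- Entries of `mapGL ℝ γ`. -/
theorem mapGL_val (γ : SL(2, ℤ)) :
    ((mapGL ℝ γ : GL (Fin 2) ℝ) : Matrix (Fin 2) (Fin 2) ℝ)
      = !![(γ 0 0 : ℝ), (γ 0 1 : ℝ); (γ 1 0 : ℝ), (γ 1 1 : ℝ)] := by
  ext i j
  fin_cases i <;> fin_cases j <;> simp

theorem coprime_of_mul_eq_prime {ℓ M u w : ℕ} (hℓ : ℓ.Prime) (hM : ¬ ℓ ∣ M) (h : u * w = ℓ) :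
    IsCoprime (M : ℤ) (u : ℤ) := by
  have hu : u ∣ ℓ := ⟨w, h.symm⟩
  have hcop : Nat.Coprime ℓ M := (Nat.Prime.coprime_iff_not_dvd hℓ).mpr hM
  exact Nat.isCoprime_iff_coprime.mpr (Nat.Coprime.coprime_dvd_left hu hcop).symm

/-! ### The inclusion -/

/-- (C) for `incl`. -/
theorem incl_hC (N q ℓ : ℕ) (hℓ : ℓ.Prime) (hℓNq : ¬ ℓ ∣ N * q)
    (γ : Gamma0 N) (κ : Gamma0 (N * q)) (x x' : OnePoint (ZMod ℓ)) (g : GL (Fin 2) ℝ)
    (hg : 1 * g = gamma0ToGL N γ * 1)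
    (e : heckeRep ℓ x * g = gamma0ToGL (N * q) κ * heckeRep ℓ x') :
    γ ∈ (incl N q).range := by
  rw [one_mul, mul_one] at hg
  subst hg
  obtain ⟨u, v, w, hx, huw⟩ := heckeRep_upper hℓ.ne_zero x
  obtain ⟨u', v', w', hx', huw'⟩ := heckeRep_upper hℓ.ne_zero x'
  have e' : ((_ : GL (Fin 2) ℝ) : Matrix (Fin 2) (Fin 2) ℝ) = _ := congrArg Units.val e
  rw [Matrix.GeneralLinearGroup.coe_mul, Matrix.GeneralLinearGroup.coe_mul, hx, hx',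
    gamma0ToGL_apply, gamma0ToGL_apply, mapGL_val, mapGL_val] at e'
  have h10 := congrFun (congrFun e' 1) 0
  simp [Matrix.mul_apply, Fin.sum_univ_two] at h10
  have h10' : (w : ℤ) * (γ : SL(2, ℤ)) 1 0 = (κ : SL(2, ℤ)) 1 0 * u' := by
    exact_mod_cast h10
  have hκ : ((N * q : ℕ) : ℤ) ∣ (κ : SL(2, ℤ)) 1 0 :=
    (ZMod.intCast_zmod_eq_zero_iff_dvd _ _).mp (Gamma0_mem.mp κ.2)
  have hdvd : ((N * q : ℕ) : ℤ) ∣ (w : ℤ) * (γ : SL(2, ℤ)) 1 0 := by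
    rw [h10']
    exact Dvd.dvd.mul_right hκ _
  have hcop : IsCoprime ((N * q : ℕ) : ℤ) (w : ℤ) :=
    coprime_of_mul_eq_prime hℓ hℓNq (by rw [mul_comm]; exact huw)
  have hγ : ((N * q : ℕ) : ℤ) ∣ (γ : SL(2, ℤ)) 1 0 := hcop.dvd_of_dvd_mul_left hdvd
  have hmem : (γ : SL(2, ℤ)) ∈ Gamma0 (N * q) :=
    Gamma0_mem.mpr ((ZMod.intCast_zmod_eq_zero_iff_dvd _ _).mpr hγ)
  exact ⟨⟨(γ : SL(2, ℤ)), hmem⟩, Subtype.ext rfl⟩

/-- `pushHom (incl N q)` commutes with `cohT ℓ`. -/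
theorem pushHom_incl_cohT (N q ℓ : ℕ) (hℓ : ℓ.Prime) (hℓN : ¬ ℓ ∣ N) (hℓNq : ¬ ℓ ∣ N * q)
    (A : Type*) [AddCommGroup A] (ψ : Additive ↥(Gamma0 (N * q)) →+ A) :
    pushHom (incl N q) A (cohT (N * q) ℓ hℓ hℓNq A ψ)
      = cohT N ℓ hℓ hℓN A (pushHom (incl N q) A ψ) := by
  have : Fact ℓ.Prime := ⟨hℓ⟩
  by_cases h : Function.Injective (incl N q) ∧ (incl N q).range.FiniteIndex
  · have := h.2
    refine pushHom_transfer_comm' (d := (1 : GL (Fin 2) ℝ)) h.1 (gamma0ToGL_injective _)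
      (gamma0ToGL_injective _) ?_ (rewritingT (N * q) ℓ hℓNq) (rewritingT N ℓ hℓN) ?_ ?_ A ψ
    · intro κ
      rw [mul_one, one_mul]
      rfl
    · intro x
      exact ⟨x, 1, by simp⟩
    · intro γ κ x x' g hg e
      exact incl_hC N q ℓ hℓ hℓNq γ κ x x' g hg e
  · rw [pushHom_eq_zero_of_not h, pushHom_eq_zero_of_not h, map_zero]

/-! ### Conjugation by `diag(q, 1)` -/

/-- The upper unipotent element `[[1, m], [0, 1]]` of `SL₂(ℤ)`. -/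
def upperUniSL (m : ℤ) : SL(2, ℤ) :=
  ⟨!![1, m; 0, 1], by simp [Matrix.det_fin_two_of]⟩

theorem upperUniSL_mem (N : ℕ) (m : ℤ) : upperUniSL m ∈ Gamma0 N := by
  rw [Gamma0_mem]
  show (((!![1, m; 0, 1] : Matrix (Fin 2) (Fin 2) ℤ) 1 0 : ℤ) : ZMod N) = 0
  simp

/-- The upper unipotent element `[[1, m], [0, 1]]` of `Γ₀(N)`. -/
def upperUni (N : ℕ) (m : ℤ) : Gamma0 N := ⟨upperUniSL m, upperUniSL_mem N m⟩

theorem upperUni_val (N : ℕ) (m : ℤ) :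
    (((upperUni N m : Gamma0 N) : SL(2, ℤ)) : Matrix (Fin 2) (Fin 2) ℤ) = !![1, m; 0, 1] := rfl

/-- (hd) for `conjD`. -/
theorem conjD_hd (N q : ℕ) (hq : q ≠ 0) (κ : Gamma0 (N * q)) :
    gamma0ToGL N (conjD N q κ) * ModularForm.heckeDiagMatrix q
      = ModularForm.heckeDiagMatrix q * gamma0ToGL (N * q) κ := by
  apply Units.ext
  rw [Units.val_mul, Units.val_mul, ModularForm.val_heckeDiagMatrix hq, gamma0ToGL_apply,
    gamma0ToGL_apply, mapGL_val, mapGL_val]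
  obtain ⟨c, hc⟩ := q_dvd_of_mem_Gamma0_mul κ.2
  have hq' : (q : ℤ) ≠ 0 := by exact_mod_cast hq
  have h00 : ((conjD N q κ : Gamma0 N) : SL(2, ℤ)) 0 0 = (κ : SL(2, ℤ)) 0 0 := by
    have := congrFun (congrFun (conjD_coe N q κ) 0) 0
    simpa [conjDMat] using this
  have h01 : ((conjD N q κ : Gamma0 N) : SL(2, ℤ)) 0 1 = q * (κ : SL(2, ℤ)) 0 1 := by
    have := congrFun (congrFun (conjD_coe N q κ) 0) 1
    simpa [conjDMat] using this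
  have h10 : ((conjD N q κ : Gamma0 N) : SL(2, ℤ)) 1 0 = c := by
    have := congrFun (congrFun (conjD_coe N q κ) 1) 0
    simp only [conjDMat, Matrix.of_apply, Matrix.cons_val', Matrix.cons_val_zero,
      Matrix.cons_val_one, Matrix.cons_val_fin_one] at this
    rw [this, hc, Int.mul_ediv_cancel_left _ hq']
  have h11 : ((conjD N q κ : Gamma0 N) : SL(2, ℤ)) 1 1 = (κ : SL(2, ℤ)) 1 1 := by
    have := congrFun (congrFun (conjD_coe N q κ) 1) 1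
    simpa [conjDMat] using this
  rw [h00, h01, h10, h11, hc]
  ext i j
  fin_cases i <;> fin_cases j <;> simp [Matrix.mul_apply, Fin.sum_univ_two] <;> ring

/-- (N) for `conjD`. -/
theorem conjD_hN (N q ℓ : ℕ) (hq : q ≠ 0) (hℓ : ℓ ≠ 0) (x : OnePoint (ZMod ℓ)) :
    ∃ (x' : OnePoint (ZMod ℓ)) (ν : Gamma0 N),
      ModularForm.heckeDiagMatrix q * heckeRep ℓ x
        = gamma0ToGL N ν * heckeRep ℓ x' * ModularForm.heckeDiagMatrix q := by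
  haveI : NeZero ℓ := ⟨hℓ⟩
  induction x using OnePoint.rec with
  | infty =>
    refine ⟨∞, 1, ?_⟩
    apply Units.ext
    rw [map_one, one_mul, Units.val_mul, Units.val_mul, heckeRep_infty,
      ModularForm.val_heckeDiagMatrix hq, ModularForm.val_heckeDiagMatrix hℓ]
    ext i j
    fin_cases i <;> fin_cases j <;> simp [Matrix.mul_apply, Fin.sum_univ_two, mul_comm]
  | coe i =>
    refine ⟨((((q * i.val : ℕ) : ZMod ℓ)) : OnePoint (ZMod ℓ)),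
      upperUni N (((q * i.val) / ℓ : ℕ) : ℤ), ?_⟩
    apply Units.ext
    rw [Units.val_mul, Units.val_mul, Units.val_mul, heckeRep_coe, heckeRep_coe,
      ModularForm.val_heckeDiagMatrix hq, ModularForm.val_heckeMatrix hℓ,
      ModularForm.val_heckeMatrix hℓ, gamma0ToGL_apply, mapGL_val, upperUni_val]
    have hval : ((((q * i.val : ℕ) : ZMod ℓ)).val : ℝ) + (((q * i.val) / ℓ : ℕ) : ℝ) * ℓ
        = q * (i.val : ℝ) := by
      rw [ZMod.val_natCast]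
      have := Nat.mod_add_div (q * i.val) ℓ
      have h2 : (((q * i.val) % ℓ + ℓ * ((q * i.val) / ℓ) : ℕ) : ℝ) = ((q * i.val : ℕ) : ℝ) := by
        rw [this]
      push_cast at h2
      linarith
    obtain ⟨a, ha⟩ : ∃ a : ℝ, a = (i.val : ℝ) := ⟨_, rfl⟩
    obtain ⟨r, hr⟩ : ∃ r : ℝ, r = ((((q * i.val : ℕ) : ZMod ℓ)).val : ℝ) := ⟨_, rfl⟩
    obtain ⟨m, hm⟩ : ∃ m : ℤ, m = (((q * i.val) / ℓ : ℕ) : ℤ) := ⟨_, rfl⟩
    have hm' : (m : ℝ) = (((q * i.val) / ℓ : ℕ) : ℝ) := by rw [hm]; push_cast; rfl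
    rw [← ha, ← hr, ← hm'] at hval
    rw [← ha, ← hr, ← hm]
    ext a b
    fin_cases a <;> fin_cases b <;> simp [Matrix.mul_apply, Fin.sum_univ_two]
    linarith

/-- Elements of `Γ₀(N)` with upper right entry divisible by `q` are in the range of
`conjD`. -/
theorem mem_range_conjD (N q : ℕ) (hq : q ≠ 0) (γ : Gamma0 N)
    (hb : (q : ℤ) ∣ (γ : SL(2, ℤ)) 0 1) : γ ∈ (conjD N q).range := by
  obtain ⟨b', hb'⟩ := hb
  have hq' : (q : ℤ) ≠ 0 := by exact_mod_cast hq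
  have hdet : (γ : SL(2, ℤ)) 0 0 * (γ : SL(2, ℤ)) 1 1 - (γ : SL(2, ℤ)) 0 1 * (γ : SL(2, ℤ)) 1 0
      = 1 := by
    have := (γ : SL(2, ℤ)).2
    rw [Matrix.det_fin_two] at this
    exact this
  have hc : (N : ℤ) ∣ (γ : SL(2, ℤ)) 1 0 :=
    (ZMod.intCast_zmod_eq_zero_iff_dvd _ _).mp (Gamma0_mem.mp γ.2)
  let M : Matrix (Fin 2) (Fin 2) ℤ :=
    !![(γ : SL(2, ℤ)) 0 0, b'; q * (γ : SL(2, ℤ)) 1 0, (γ : SL(2, ℤ)) 1 1]
  have hM : M.det = 1 := by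
    rw [Matrix.det_fin_two_of]
    rw [hb'] at hdet
    linear_combination hdet
  obtain ⟨σ, hσ⟩ : ∃ σ : SL(2, ℤ), (σ : Matrix (Fin 2) (Fin 2) ℤ) = M := ⟨⟨M, hM⟩, rfl⟩
  have hmem : σ ∈ Gamma0 (N * q) := by
    rw [Gamma0_mem]
    apply (ZMod.intCast_zmod_eq_zero_iff_dvd _ _).mpr
    have h10 : σ 1 0 = q * (γ : SL(2, ℤ)) 1 0 := by
      show (σ : Matrix (Fin 2) (Fin 2) ℤ) 1 0 = _
      rw [hσ]
      rfl
    rw [h10]
    obtain ⟨c', hc'⟩ := hc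
    exact ⟨c', by rw [hc']; push_cast; ring⟩
  refine ⟨⟨σ, hmem⟩, ?_⟩
  apply Subtype.ext
  apply Subtype.ext
  rw [conjD_coe]
  show conjDMat q (σ : Matrix (Fin 2) (Fin 2) ℤ) = _
  rw [hσ]
  ext a b
  fin_cases a <;> fin_cases b
  · simp [conjDMat, M]
  · simp [conjDMat, M, hb']
  · simp [conjDMat, M, Int.mul_ediv_cancel_left _ hq']
  · simp [conjDMat, M]

/-- (C) for `conjD`. -/
theorem conjD_hC (N q ℓ : ℕ) (hq : q.Prime) (hℓ : ℓ.Prime) (hℓNq : ¬ ℓ ∣ N * q)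
    (γ : Gamma0 N) (κ : Gamma0 (N * q)) (x x' : OnePoint (ZMod ℓ)) (g : GL (Fin 2) ℝ)
    (hg : ModularForm.heckeDiagMatrix q * g = gamma0ToGL N γ * ModularForm.heckeDiagMatrix q)
    (e : heckeRep ℓ x * g = gamma0ToGL (N * q) κ * heckeRep ℓ x') :
    γ ∈ (conjD N q).range := by
  apply mem_range_conjD N q hq.ne_zero
  obtain ⟨u, v, w, hx, huw⟩ := heckeRep_upper hℓ.ne_zero x
  obtain ⟨u', v', w', hx', huw'⟩ := heckeRep_upper hℓ.ne_zero x'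
  have hg' : ((_ : GL (Fin 2) ℝ) : Matrix (Fin 2) (Fin 2) ℝ) = _ := congrArg Units.val hg
  have e' : ((_ : GL (Fin 2) ℝ) : Matrix (Fin 2) (Fin 2) ℝ) = _ := congrArg Units.val e
  rw [Units.val_mul, Units.val_mul, ModularForm.val_heckeDiagMatrix hq.ne_zero,
    gamma0ToGL_apply, mapGL_val] at hg'
  rw [Units.val_mul, Units.val_mul, hx, hx', gamma0ToGL_apply, mapGL_val] at e'
  have g01 := congrFun (congrFun hg' 0) 1
  have g11 := congrFun (congrFun hg' 1) 1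
  have e01 := congrFun (congrFun e' 0) 1
  simp [Matrix.mul_apply, Fin.sum_univ_two] at g01 g11 e01
  -- `q * g01 = b`, `g11 = d`, `u * g01 + v * g11 = κ00 * v' + κ01 * w'`
  have key : (u : ℝ) * ((γ : SL(2, ℤ)) 0 1 : ℝ)
      = q * (((κ : SL(2, ℤ)) 0 0 : ℝ) * v' + ((κ : SL(2, ℤ)) 0 1 : ℝ) * w'
        - v * ((γ : SL(2, ℤ)) 1 1 : ℝ)) := by
    rw [← e01, ← g01, g11]
    ring
  have keyZ : (u : ℤ) * (γ : SL(2, ℤ)) 0 1
      = q * ((κ : SL(2, ℤ)) 0 0 * v' + (κ : SL(2, ℤ)) 0 1 * w' - v * (γ : SL(2, ℤ)) 1 1) := by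
    exact_mod_cast key
  have hdvd : (q : ℤ) ∣ (u : ℤ) * (γ : SL(2, ℤ)) 0 1 := ⟨_, keyZ⟩
  have hℓq : ¬ ℓ ∣ q := fun h => hℓNq (Dvd.dvd.mul_left h N)
  have hcop : IsCoprime (q : ℤ) (u : ℤ) := coprime_of_mul_eq_prime hℓ hℓq huw
  exact hcop.dvd_of_dvd_mul_left hdvd

/-- `pushHom (conjD N q)` commutes with `cohT ℓ`. -/
theorem pushHom_conjD_cohT (N q ℓ : ℕ) (hq : q.Prime) (hℓ : ℓ.Prime) (hℓN : ¬ ℓ ∣ N)
    (hℓNq : ¬ ℓ ∣ N * q) (A : Type*) [AddCommGroup A]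
    (ψ : Additive ↥(Gamma0 (N * q)) →+ A) :
    pushHom (conjD N q) A (cohT (N * q) ℓ hℓ hℓNq A ψ)
      = cohT N ℓ hℓ hℓN A (pushHom (conjD N q) A ψ) := by
  have : Fact ℓ.Prime := ⟨hℓ⟩
  by_cases h : Function.Injective (conjD N q) ∧ (conjD N q).range.FiniteIndex
  · have := h.2
    refine pushHom_transfer_comm' (d := ModularForm.heckeDiagMatrix q) h.1
      (gamma0ToGL_injective _) (gamma0ToGL_injective _) ?_ (rewritingT (N * q) ℓ hℓNq)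
      (rewritingT N ℓ hℓN) ?_ ?_ A ψ
    · intro κ
      exact conjD_hd N q hq.ne_zero κ
    · intro x
      exact conjD_hN N q ℓ hq.ne_zero hℓ.ne_zero x
    · intro γ κ x x' g hg e
      exact conjD_hC N q ℓ hq hℓ hℓNq γ κ x x' g hg e
  · rw [pushHom_eq_zero_of_not h, pushHom_eq_zero_of_not h, map_zero]

end Fermat.Agent.H94.SS2
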