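/-
P-SS2 (S35/S36), J-side, row 1053 (SS2-J2 PUSH-COHT), helper94:
`pushCohT : Fermat.Agent.H52.SS.PushCohTStatement` (unconditional): the transfers along the
two degeneracy homomorphisms `Γ₀(N q) → Γ₀(N)` commute with `cohT ℓ`, `ℓ ∤ N q`.
-/
import Fermat.Agent.H52.SS.JInterfaces
import Fermat.Agent.H94.SS2.PushCohTConcrete

set_option autoImplicit false

namespace Fermat.Agent.H94.SS2

/-- **(J2) PUSH-COHT** (row 1053). -/
theorem pushCohT : Fermat.Agent.H52.SS.PushCohTStatement := by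
  intro N q _ hq ℓ hℓ hℓN hℓNq A _ ψ
  exact ⟨pushHom_incl_cohT N q ℓ hℓ hℓN hℓNq A ψ, pushHom_conjD_cohT N q ℓ hq hℓ hℓN hℓNq A ψ⟩

end Fermat.Agent.H94.SS2
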